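import Fermat.Agent.ES.J.Ramanujan

/-!
# ES / J1: level-one modular forms are combinations of monomials `E₄^a E₆^b`
-/

set_option autoImplicit false

namespace Fermat.Agent.ES

open UpperHalfPlane hiding I
open Real Complex Filter Function Derivative
open ModularForm EisensteinSeries SlashInvariantForm SlashInvariantFormClass ModularFormClass
open scoped Manifold MatrixGroups ModularForm Topology

/-- The span of the monomials `E₄^a E₆^b` of weight `4a + 6b = k` (as functions on `ℍ`). -/
def monoSpan (k : ℤ) : Submodule ℂ (ℍ → ℂ) :=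
  Submodule.span ℂ {F | ∃ a b : ℕ, 4 * (a : ℤ) + 6 * (b : ℤ) = k ∧
    F = fun z => E₄ z ^ a * E₆ z ^ b}

theorem monomial_mem_monoSpan {k : ℤ} (a b : ℕ) (h : 4 * (a : ℤ) + 6 * (b : ℤ) = k) :
    (fun z : ℍ => E₄ z ^ a * E₆ z ^ b) ∈ monoSpan k :=
  Submodule.subset_span ⟨a, b, h, rfl⟩

/-- The monomial `E₄^a E₆^b` as a modular form. -/
noncomputable def monoForm (a b : ℕ) {k : ℤ} (h : 4 * (a : ℤ) + 6 * (b : ℤ) = k) :
    ModularForm 𝒮ℒ k :=
  mcast (by rw [← h]; ring) ((E₄.pow a).mul (E₆.pow b))

theorem monoForm_apply (a b : ℕ) {k : ℤ} (h : 4 * (a : ℤ) + 6 * (b : ℤ) = k) (z : ℍ) :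
    monoForm a b h z = E₄ z ^ a * E₆ z ^ b := by
  change ((E₄.pow a).mul (E₆.pow b)) z = _
  change (E₄.pow a) z * (E₆.pow b) z = _
  rw [ModularForm.coe_pow, ModularForm.coe_pow]
  rfl

theorem tendsto_monoForm (a b : ℕ) {k : ℤ} (h : 4 * (a : ℤ) + 6 * (b : ℤ) = k) :
    Tendsto (monoForm a b h) atImInfty (𝓝 1) := by
  have h1 : Tendsto (fun z : ℍ => E₄ z ^ a * E₆ z ^ b) atImInfty (𝓝 (1 ^ a * 1 ^ b)) :=
    (tendsto_E₄.pow a).mul (tendsto_E₆.pow b)
  simp only [one_pow, mul_one] at h1
  exact h1.congr fun z ↦ (monoForm_apply a b h z).symm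

/-- multiplication by `Δ` maps `monoSpan (k - 12)` into `monoSpan k`. -/
theorem discriminant_mul_mem_monoSpan {k : ℤ} {F : ℍ → ℂ} (hF : F ∈ monoSpan (k - 12)) :
    (fun z => ModularForm.discriminant z * F z) ∈ monoSpan k := by
  induction hF using Submodule.span_induction with
  | mem F hF =>
    obtain ⟨a, b, hab, rfl⟩ := hF
    have e : (fun z : ℍ => ModularForm.discriminant z * (E₄ z ^ a * E₆ z ^ b))
        = (1728 : ℂ)⁻¹ • (fun z : ℍ => E₄ z ^ (a + 3) * E₆ z ^ b)
          - (1728 : ℂ)⁻¹ • (fun z : ℍ => E₄ z ^ a * E₆ z ^ (b + 2)) := by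
      funext z
      simp only [Pi.sub_apply, Pi.smul_apply, smul_eq_mul]
      rw [discriminant_eq_E₄_cube_sub_E₆_sq z]
      ring
    rw [e]
    refine Submodule.sub_mem _ (Submodule.smul_mem _ _ ?_) (Submodule.smul_mem _ _ ?_)
    · exact monomial_mem_monoSpan (a + 3) b (by push_cast; linarith)
    · exact monomial_mem_monoSpan a (b + 2) (by push_cast; linarith)
  | zero =>
    have : (fun z : ℍ => ModularForm.discriminant z * (0 : ℍ → ℂ) z) = 0 := by
      funext z; simp
    rw [this]; exact Submodule.zero_mem _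
  | add F G _ _ hF hG =>
    have : (fun z : ℍ => ModularForm.discriminant z * (F + G) z)
        = (fun z => ModularForm.discriminant z * F z) + fun z => ModularForm.discriminant z * G z := by
      funext z; simp [mul_add]
    rw [this]; exact Submodule.add_mem _ hF hG
  | smul c F _ hF =>
    have : (fun z : ℍ => ModularForm.discriminant z * (c • F) z)
        = c • fun z => ModularForm.discriminant z * F z := by
      funext z; simp [mul_left_comm]
    rw [this]; exact Submodule.smul_mem _ _ hF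

/-- **J1**: every level-one modular form is a combination of monomials `E₄^a E₆^b`. -/
theorem levelOne_mem_monoSpan {k : ℤ} (f : ModularForm 𝒮ℒ k) : (f : ℍ → ℂ) ∈ monoSpan k := by
  induction' hn : k.toNat using Nat.strong_induction_on with n ih generalizing k f
  rcases lt_or_ge k 0 with hneg | hnn
  · rw [levelOne_neg_weight_eq_zero hneg f]; exact Submodule.zero_mem _
  rcases Int.even_or_odd k with hev | hodd
  swap
  · rw [ModularForm.levelOne_odd_weight_eq_zero hodd f]
    exact Submodule.zero_mem _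
  -- `k ≥ 0` even: find a monomial of weight `k`, unless `k = 2`
  by_cases hk2 : k = 2
  · subst hk2
    have : f = 0 := rank_zero_iff_forall_zero.mp levelOne_weight_two_rank_zero f
    rw [this]; exact Submodule.zero_mem _
  obtain ⟨a, b, hab⟩ : ∃ a b : ℕ, 4 * (a : ℤ) + 6 * (b : ℤ) = k := by
    obtain ⟨m, hm⟩ := hev
    rcases Int.emod_two_eq_zero_or_one m with h0 | h1
    · refine ⟨(k / 4).toNat, 0, ?_⟩
      have h4 : 0 ≤ k / 4 := by omega
      rw [Int.toNat_of_nonneg h4]
      omega
    · refine ⟨((k - 6) / 4).toNat, 1, ?_⟩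
      have h4 : 0 ≤ (k - 6) / 4 := by omega
      rw [Int.toNat_of_nonneg h4]
      omega
  set c₀ : ℂ := (qExpansion 1 f).coeff 0 with hc₀
  set g : ModularForm 𝒮ℒ k := f - c₀ • monoForm a b hab with hg
  have hg0 : (qExpansion 1 g).coeff 0 = 0 := by
    have h1 := tendsto_levelOne g
    have h2 : Tendsto g atImInfty (𝓝 (c₀ - c₀ * 1)) := by
      have := (tendsto_levelOne f).sub ((tendsto_monoForm a b hab).const_mul c₀)
      exact this.congr fun z ↦ by simp [hg]
    have := tendsto_nhds_unique h1 h2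
    simpa using this
  set h' : ModularForm 𝒮ℒ (k - 12) := CuspForm.discriminantEquiv (toCuspForm g hg0) with hh'
  have hIH : (h' : ℍ → ℂ) ∈ monoSpan (k - 12) := by
    rcases lt_or_ge k 12 with hk12 | hk12
    · rw [levelOne_neg_weight_eq_zero (by omega) h']; exact Submodule.zero_mem _
    refine ih (k - 12).toNat ?_ h' rfl
    have h1 : ((k - 12).toNat : ℤ) = k - 12 := Int.toNat_of_nonneg (by omega)
    have h2 : (k.toNat : ℤ) = k := Int.toNat_of_nonneg hnn
    have h3 : ((k - 12).toNat : ℤ) < (n : ℤ) := by rw [h1, ← hn, h2]; omega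
    exact_mod_cast h3
  have hfeq : (f : ℍ → ℂ) = c₀ • (fun z : ℍ => E₄ z ^ a * E₆ z ^ b)
      + fun z => ModularForm.discriminant z * h' z := by
    funext z
    have e1 : ModularForm.discriminant z * h' z = g z := by
      rw [hh', discriminant_mul_discriminantEquiv_apply, toCuspForm_apply]
    simp only [Pi.add_apply, Pi.smul_apply, smul_eq_mul, e1, hg]
    simp [monoForm_apply]
  rw [hfeq]
  exact Submodule.add_mem _ (Submodule.smul_mem _ _ (monomial_mem_monoSpan a b hab))
    (discriminant_mul_mem_monoSpan hIH)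

end Fermat.Agent.ES
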