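import Fermat.Agent.ES.J.Monomials
import Fermat.Agent.ES.JInj

/-!
# ES / J4: the level-one form `hForm z0` vanishing exactly (and simply) on the orbit of `z0`,
and the level-one division lemma.
-/

set_option autoImplicit false

namespace Fermat.Agent.ES

open UpperHalfPlane hiding I
open Real Complex Filter Function Derivative
open ModularForm EisensteinSeries SlashInvariantForm SlashInvariantFormClass ModularFormClass
open scoped Manifold MatrixGroups ModularForm Topology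

/-- Transformation law of a level-one modular form. -/
theorem levelOne_smul_apply {k : ℤ} (f : ModularForm 𝒮ℒ k) (γ : SL(2, ℤ)) (z : ℍ) :
    f (γ • z) = denom γ z ^ k * f z := by
  have h := congrFun (levelOne_slash_eq f γ) z
  rw [SL_slash_apply] at h
  have hd : denom γ z ≠ 0 := denom_ne_zero γ z
  rw [← h, mul_comm (denom γ z ^ k), mul_assoc, ← zpow_add₀ hd]
  simp

theorem levelOne_smul_eq_zero_iff {k : ℤ} (f : ModularForm 𝒮ℒ k) (γ : SL(2, ℤ)) (z : ℍ) :
    f (γ • z) = 0 ↔ f z = 0 := by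
  rw [levelOne_smul_apply]
  have hd : denom γ z ^ k ≠ 0 := zpow_ne_zero _ (denom_ne_zero γ z)
  simp [hd]

theorem E₄_ne_zero_of_E₆_eq_zero {z : ℍ} (h : E₆ z = 0) : E₄ z ≠ 0 := by
  intro h4
  have := discriminant_eq_E₄_cube_sub_E₆_sq z
  rw [h, h4] at this
  exact discriminant_ne_zero z (by simpa using this)

theorem E₆_ne_zero_of_E₄_eq_zero {z : ℍ} (h : E₄ z = 0) : E₆ z ≠ 0 :=
  fun h6 ↦ E₄_ne_zero_of_E₆_eq_zero h6 h

/-- The weight of `hForm z0`. -/
noncomputable def hWeight (z0 : ℍ) : ℕ := if E₆ z0 = 0 then 6 else if E₄ z0 = 0 then 4 else 12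

theorem hWeight_of_E₆ {z0 : ℍ} (h6 : E₆ z0 = 0) : hWeight z0 = 6 := by simp [hWeight, h6]

theorem hWeight_of_E₄ {z0 : ℍ} (h4 : E₄ z0 = 0) : hWeight z0 = 4 := by
  simp [hWeight, h4, E₆_ne_zero_of_E₄_eq_zero h4]

theorem hWeight_of_ne {z0 : ℍ} (h6 : E₆ z0 ≠ 0) (h4 : E₄ z0 ≠ 0) : hWeight z0 = 12 := by
  simp [hWeight, h4, h6]

/-- The generic form `Δ(z0) E₄³ - E₄(z0)³ Δ` of weight `12`. -/
noncomputable def hGen (z0 : ℍ) : ModularForm 𝒮ℒ 12 :=
  (ModularForm.discriminant z0 - E₄ z0 ^ 3 / 1728) • monoForm 3 0 (k := 12) (by norm_num)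
    + (E₄ z0 ^ 3 / 1728) • monoForm 0 2 (k := 12) (by norm_num)

theorem hGen_apply (z0 z : ℍ) :
    hGen z0 z = ModularForm.discriminant z0 * E₄ z ^ 3 - E₄ z0 ^ 3 * ModularForm.discriminant z := by
  have e : hGen z0 z = (ModularForm.discriminant z0 - E₄ z0 ^ 3 / 1728) * (E₄ z ^ 3 * E₆ z ^ 0)
      + (E₄ z0 ^ 3 / 1728) * (E₄ z ^ 0 * E₆ z ^ 2) := by
    change (ModularForm.discriminant z0 - E₄ z0 ^ 3 / 1728) * monoForm 3 0 _ z
      + (E₄ z0 ^ 3 / 1728) * monoForm 0 2 _ z = _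
    rw [monoForm_apply, monoForm_apply]
  rw [e, discriminant_eq_E₄_cube_sub_E₆_sq z]
  ring

/-- A level-one modular form whose zero set is exactly the `SL(2,ℤ)`-orbit of `z0`, with simple
zeros: `E₆` if `E₆ z0 = 0`, `E₄` if `E₄ z0 = 0`, and `Δ(z0) E₄³ - E₄(z0)³ Δ` otherwise. -/
noncomputable def hForm (z0 : ℍ) : ModularForm 𝒮ℒ (hWeight z0) :=
  if h6 : E₆ z0 = 0 then mcast (by rw [hWeight_of_E₆ h6]; rfl) E₆
  else if h4 : E₄ z0 = 0 then mcast (by rw [hWeight_of_E₄ h4]; rfl) E₄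
  else mcast (by rw [hWeight_of_ne h6 h4]; rfl) (hGen z0)

theorem hForm_coe_of_E₆ {z0 : ℍ} (h6 : E₆ z0 = 0) : (hForm z0 : ℍ → ℂ) = E₆ := by
  unfold hForm; rw [dif_pos h6]; rfl

theorem hForm_coe_of_E₄ {z0 : ℍ} (h4 : E₄ z0 = 0) : (hForm z0 : ℍ → ℂ) = E₄ := by
  unfold hForm; rw [dif_neg (E₆_ne_zero_of_E₄_eq_zero h4), dif_pos h4]; rfl

theorem hForm_coe_of_ne {z0 : ℍ} (h6 : E₆ z0 ≠ 0) (h4 : E₄ z0 ≠ 0) :
    (hForm z0 : ℍ → ℂ) = hGen z0 := by
  unfold hForm; rw [dif_neg h6, dif_neg h4]; rfl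

theorem hForm_apply_of_ne {z0 : ℍ} (h6 : E₆ z0 ≠ 0) (h4 : E₄ z0 ≠ 0) (z : ℍ) :
    hForm z0 z = ModularForm.discriminant z0 * E₄ z ^ 3
      - E₄ z0 ^ 3 * ModularForm.discriminant z := by
  rw [← hGen_apply]; exact congrFun (hForm_coe_of_ne h6 h4) z

theorem hForm_self (z0 : ℍ) : hForm z0 z0 = 0 := by
  by_cases h6 : E₆ z0 = 0
  · rw [congrFun (hForm_coe_of_E₆ h6) z0, h6]
  by_cases h4 : E₄ z0 = 0
  · rw [congrFun (hForm_coe_of_E₄ h4) z0, h4]
  rw [hForm_apply_of_ne h6 h4]; ring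

/-- The zero set of `hForm z0` is exactly the orbit of `z0`. -/
theorem hForm_eq_zero_iff (z0 z : ℍ) : hForm z0 z = 0 ↔ ∃ g : SL(2, ℤ), g • z0 = z := by
  constructor
  · intro hz
    apply j_injective
    by_cases h6 : E₆ z0 = 0
    · rw [congrFun (hForm_coe_of_E₆ h6) z] at hz
      rw [discriminant_eq_E₄_cube_sub_E₆_sq z, discriminant_eq_E₄_cube_sub_E₆_sq z0, h6, hz]
      ring
    by_cases h4 : E₄ z0 = 0
    · rw [congrFun (hForm_coe_of_E₄ h4) z] at hz
      rw [h4, hz]; ring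
    rw [hForm_apply_of_ne h6 h4] at hz
    linear_combination -hz
  · rintro ⟨g, rfl⟩
    rw [levelOne_smul_eq_zero_iff]
    exact hForm_self z0

theorem hForm_mem_monoSpan (z0 : ℍ) : (hForm z0 : ℍ → ℂ) ∈ monoSpan (hWeight z0) :=
  levelOne_mem_monoSpan _

/-- All zeros of `hForm z0` are simple. -/
theorem hForm_deriv_ne_zero (z0 z : ℍ) (hz : hForm z0 z = 0) : D (hForm z0) z ≠ 0 := by
  have hΔ := discriminant_ne_zero z
  have hΔ0 := discriminant_ne_zero z0
  have hΔz := discriminant_eq_E₄_cube_sub_E₆_sq z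
  have hΔz0 := discriminant_eq_E₄_cube_sub_E₆_sq z0
  by_cases h6 : E₆ z0 = 0
  · rw [hForm_coe_of_E₆ h6] at hz ⊢
    rw [ramanujan_E₆, hz]
    have h4 : E₄ z ≠ 0 := E₄_ne_zero_of_E₆_eq_zero hz
    intro h0
    apply h4
    have : E₄ z ^ 2 = 0 := by linear_combination -2 * h0
    exact pow_eq_zero_iff (two_ne_zero) |>.mp this
  by_cases h4 : E₄ z0 = 0
  · rw [hForm_coe_of_E₄ h4] at hz ⊢
    rw [ramanujan_E₄, hz]
    have h6' : E₆ z ≠ 0 := E₆_ne_zero_of_E₄_eq_zero hz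
    intro h0
    apply h6'
    linear_combination -3 * h0
  -- generic case
  have hz' := hz
  rw [hForm_apply_of_ne h6 h4] at hz'
  have hfun : (hForm z0 : ℍ → ℂ) = ModularForm.discriminant z0 • ((E₄ : ℍ → ℂ) ^ 3)
      - (E₄ z0 ^ 3) • (ModularForm.discriminant : ℍ → ℂ) := by
    funext τ
    rw [hForm_apply_of_ne h6 h4]
    simp
  have hm4 : MDiff (E₄ : ℍ → ℂ) := holo E₄
  have hm43 : MDiff ((E₄ : ℍ → ℂ) ^ 3) := by
    have := holo (E₄.pow 3)
    rwa [ModularForm.coe_pow] at this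
  have hmΔ : MDiff (ModularForm.discriminant : ℍ → ℂ) := holo CuspForm.discriminant
  have hD : D (hForm z0) z = ModularForm.discriminant z0 * (3 * E₄ z ^ 2 * D E₄ z)
      - E₄ z0 ^ 3 * D ModularForm.discriminant z := by
    rw [hfun, normalizedDerivOfComplex_sub _ _ (hm43.const_smul _) (hmΔ.const_smul _),
      normalizedDerivOfComplex_smul _ _ hm43, normalizedDerivOfComplex_smul _ _ hmΔ,
      normalizedDerivOfComplex_pow _ _ hm4]
    simp
  have hD2 : D (hForm z0) z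
      = - (ModularForm.discriminant z0 * E₄ z ^ 2 * E₆ z) := by
    rw [hD, ramanujan_E₄, ramanujan_discriminant]
    linear_combination E2 z * hz'
  rw [hD2]
  have h4z : E₄ z ≠ 0 := by
    intro h0
    rw [h0] at hz'
    have : E₄ z0 ^ 3 * ModularForm.discriminant z = 0 := by linear_combination -hz'
    rcases mul_eq_zero.mp this with h | h
    · exact h4 (pow_eq_zero_iff (by norm_num) |>.mp h)
    · exact hΔ h
  have h6z : E₆ z ≠ 0 := by
    intro h0
    rw [hΔz, hΔz0, h0] at hz'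
    have h1 : E₄ z ^ 3 * E₆ z0 ^ 2 = 0 := by linear_combination -1728 * hz'
    rcases mul_eq_zero.mp h1 with h | h
    · exact h4z (pow_eq_zero_iff (by norm_num) |>.mp h)
    · exact h6 (pow_eq_zero_iff (by norm_num) |>.mp h)
  exact neg_ne_zero.mpr (mul_ne_zero (mul_ne_zero hΔ0 (pow_ne_zero _ h4z)) h6z)

/-- **Level-one division lemma.** A holomorphic function on `ℍ` vanishing on the orbit of `z0`
is divisible by `hForm z0` in the ring of holomorphic functions on `ℍ`. -/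
theorem exists_eq_hForm_mul (z0 : ℍ) {u : ℍ → ℂ} (hu : MDiff u)
    (hvan : ∀ g : SL(2, ℤ), u (g • z0) = 0) :
    ∃ v : ℍ → ℂ, MDiff v ∧ ∀ z, u z = hForm z0 z * v z := by
  classical
  have hh_holo : MDiff (hForm z0 : ℍ → ℂ) := holo (hForm z0)
  set U : ℂ → ℂ := u ∘ ofComplex with hUdef
  set H : ℂ → ℂ := (hForm z0 : ℍ → ℂ) ∘ ofComplex with hHdef
  have hU : DifferentiableOn ℂ U {z | 0 < z.im} := mdifferentiable_iff.mp hu
  have hH : DifferentiableOn ℂ H {z | 0 < z.im} := mdifferentiable_iff.mp hh_holo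
  have hUcoe : ∀ z : ℍ, U z = u z := fun z ↦ by simp [hUdef]
  have hHcoe : ∀ z : ℍ, H z = hForm z0 z := fun z ↦ by simp [hHdef]
  have hzero : ∀ z : ℍ, hForm z0 z = 0 → u z = 0 := by
    intro z hz
    obtain ⟨g, hg⟩ := (hForm_eq_zero_iff z0 z).mp hz
    rw [← hg]; exact hvan g
  let V : ℂ → ℂ := fun ζ ↦ if H ζ = 0 then deriv U ζ / deriv H ζ else U ζ / H ζ
  have hV : DifferentiableOn ℂ V {z | 0 < z.im} := by
    intro w hw
    apply DifferentiableAt.differentiableWithinAt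
    have hs : {z : ℂ | 0 < z.im} ∈ 𝓝 w := isOpen_upperHalfPlaneSet.mem_nhds hw
    by_cases hHw : H w = 0
    · -- simple zero of `H` at `w`
      have hHw' : hForm z0 ⟨w, hw⟩ = 0 := by rw [← hHcoe]; exact hHw
      have hdH : deriv H w ≠ 0 := by
        have h1 := hForm_deriv_ne_zero z0 ⟨w, hw⟩ hHw'
        intro h0
        apply h1
        change (2 * π * I)⁻¹ * deriv H ((⟨w, hw⟩ : ℍ) : ℂ) = 0
        change (2 * π * I)⁻¹ * deriv H w = 0
        rw [h0, mul_zero]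
      have hUw : U w = 0 := by
        have := hzero ⟨w, hw⟩ hHw'
        rw [← hUcoe] at this; exact this
      have hU1 : DifferentiableAt ℂ (dslope U w) w :=
        ((Complex.differentiableOn_dslope hs).mpr hU).differentiableAt hs
      have hH1 : DifferentiableAt ℂ (dslope H w) w :=
        ((Complex.differentiableOn_dslope hs).mpr hH).differentiableAt hs
      have hH1ne : dslope H w w ≠ 0 := by rw [dslope_same]; exact hdH
      have hq : DifferentiableAt ℂ (fun ζ ↦ dslope U w ζ / dslope H w ζ) w :=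
        hU1.div hH1 hH1ne
      have hev : ∀ᶠ ζ in 𝓝 w, dslope H w ζ ≠ 0 := hH1.continuousAt.eventually_ne hH1ne
      refine hq.congr_of_eventuallyEq ?_
      filter_upwards [hev] with ζ hζ
      by_cases hζw : ζ = w
      · subst hζw
        simp only [V, hHw, if_true, dslope_same]
      · have e1 : H ζ = (ζ - w) * dslope H w ζ := by
          have := sub_smul_dslope H w ζ
          rw [hHw, sub_zero, smul_eq_mul] at this
          exact this.symm
        have e2 : U ζ = (ζ - w) * dslope U w ζ := by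
          have := sub_smul_dslope U w ζ
          rw [hUw, sub_zero, smul_eq_mul] at this
          exact this.symm
        have hsub : ζ - w ≠ 0 := sub_ne_zero.mpr hζw
        have hne : H ζ ≠ 0 := by rw [e1]; exact mul_ne_zero hsub hζ
        simp only [V, hne, if_false]
        rw [e1, e2]
        field_simp
    · have hHd : DifferentiableAt ℂ H w := (hH w hw).differentiableAt hs
      have hUd : DifferentiableAt ℂ U w := (hU w hw).differentiableAt hs
      have hq : DifferentiableAt ℂ (fun ζ ↦ U ζ / H ζ) w := hUd.div hHd hHw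
      have hev : ∀ᶠ ζ in 𝓝 w, H ζ ≠ 0 := hHd.continuousAt.eventually_ne hHw
      refine hq.congr_of_eventuallyEq ?_
      filter_upwards [hev] with ζ hζ
      simp only [V, hζ, if_false]
  refine ⟨fun z ↦ V z, ?_, ?_⟩
  · rw [mdifferentiable_iff]
    refine hV.congr ?_
    intro w hw
    simp [ofComplex_apply_of_im_pos hw]
  · intro z
    by_cases hz : hForm z0 z = 0
    · rw [hz, zero_mul]; exact hzero z hz
    · have hz' : H z ≠ 0 := by rw [hHcoe]; exact hz
      change u z = hForm z0 z * (if H z = 0 then deriv U z / deriv H z else U z / H z)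
      rw [if_neg hz', hUcoe, hHcoe]
      field_simp

/-! ### The elliptic points `i` and `ρ` -/

theorem S_smul_I : ModularGroup.S • UpperHalfPlane.I = UpperHalfPlane.I :=
  ModularGroup.stabilizer_I.mpr (by simp)

theorem ST_smul_ρ : (ModularGroup.S * ModularGroup.T) • ρ = ρ :=
  ModularGroup.stabilizer_ρ.mpr (by simp)

theorem E₆_I : E₆ UpperHalfPlane.I = 0 := by
  have h := levelOne_smul_apply E₆ ModularGroup.S UpperHalfPlane.I
  rw [S_smul_I, ModularGroup.denom_S] at h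
  have h2 : ((UpperHalfPlane.I : ℍ) : ℂ) ^ (6 : ℤ) = -1 := by
    rw [UpperHalfPlane.coe_I, show (6 : ℤ) = ((6 : ℕ) : ℤ) from rfl, zpow_natCast]
    have : (Complex.I) ^ 6 = (Complex.I ^ 2) ^ 3 := by ring
    rw [this, Complex.I_sq]; norm_num
  rw [h2] at h
  linear_combination h / 2

theorem denom_ST (z : ℍ) : denom (ModularGroup.S * ModularGroup.T : SL(2, ℤ)) z = z + 1 := by
  rw [ModularGroup.denom_apply, Matrix.SpecialLinearGroup.coe_mul, ModularGroup.coe_S,
    ModularGroup.coe_T, Matrix.mul_fin_two]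
  simp

theorem E₄_ρ : E₄ ρ = 0 := by
  have h := levelOne_smul_apply E₄ (ModularGroup.S * ModularGroup.T) ρ
  rw [ST_smul_ρ, denom_ST] at h
  have h1 : ((ρ : ℂ) + 1) = -(ρ : ℂ) ^ 2 := by linear_combination ρ_sq
  have h3 : (ρ : ℂ) ^ 3 = 1 := by
    have : (ρ : ℂ) ^ 3 = (ρ : ℂ) * (ρ : ℂ) ^ 2 := by ring
    rw [this, ρ_sq]
    linear_combination -ρ_sq
  have h2 : ((ρ : ℂ) + 1) ^ (4 : ℤ) = -(ρ : ℂ) - 1 := by
    rw [show (4 : ℤ) = ((4 : ℕ) : ℤ) from rfl, zpow_natCast, h1]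
    have : (-(ρ : ℂ) ^ 2) ^ 4 = ((ρ : ℂ) ^ 3) ^ 2 * (ρ : ℂ) ^ 2 := by ring
    rw [this, h3, ρ_sq]; ring
  rw [h2] at h
  have h4 : ((ρ : ℂ) + 2) * E₄ ρ = 0 := by linear_combination h
  rcases mul_eq_zero.mp h4 with h5 | h5
  · exfalso
    have := congrArg Complex.im h5
    simp [ρ] at this
  · exact h5

theorem hWeight_I : hWeight UpperHalfPlane.I = 6 := hWeight_of_E₆ E₆_I

theorem hWeight_ρ : hWeight ρ = 4 := hWeight_of_E₄ E₄_ρ

/-! ### Behaviour at `i∞` -/

theorem tendsto_discriminant : Tendsto ModularForm.discriminant atImInfty (𝓝 0) := by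
  have h : Tendsto (fun z : ℍ ↦ (E₄ z ^ 3 - E₆ z ^ 2) / 1728) atImInfty
      (𝓝 (((1 : ℂ) ^ 3 - 1 ^ 2) / 1728)) :=
    ((tendsto_E₄.pow 3).sub (tendsto_E₆.pow 2)).div_const _
  have e : (((1 : ℂ) ^ 3 - 1 ^ 2) / 1728) = 0 := by norm_num
  rw [e] at h
  exact h.congr fun z ↦ (discriminant_eq_E₄_cube_sub_E₆_sq z).symm

/-- `hForm z0` has a nonzero limit at `i∞`. -/
theorem tendsto_hForm (z0 : ℍ) : ∃ l : ℂ, l ≠ 0 ∧ Tendsto (hForm z0) atImInfty (𝓝 l) := by
  by_cases h6 : E₆ z0 = 0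
  · refine ⟨1, one_ne_zero, ?_⟩
    rw [hForm_coe_of_E₆ h6]; exact tendsto_E₆
  by_cases h4 : E₄ z0 = 0
  · refine ⟨1, one_ne_zero, ?_⟩
    rw [hForm_coe_of_E₄ h4]; exact tendsto_E₄
  refine ⟨ModularForm.discriminant z0, discriminant_ne_zero z0, ?_⟩
  have h : Tendsto (fun z : ℍ ↦ ModularForm.discriminant z0 * E₄ z ^ 3
      - E₄ z0 ^ 3 * ModularForm.discriminant z) atImInfty
      (𝓝 (ModularForm.discriminant z0 * 1 ^ 3 - E₄ z0 ^ 3 * 0)) :=
    ((tendsto_E₄.pow 3).const_mul _).sub (tendsto_discriminant.const_mul _)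
  have e : ModularForm.discriminant z0 * 1 ^ 3 - E₄ z0 ^ 3 * 0 = ModularForm.discriminant z0 := by
    ring
  rw [e] at h
  exact h.congr fun z ↦ (hForm_apply_of_ne h6 h4 z).symm

end Fermat.Agent.ES
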