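import Mathlib

/-!
# ES / J: limits at `i∞` of periodic holomorphic functions and of their derivative
-/

set_option autoImplicit false

namespace Fermat.Agent.ES

open UpperHalfPlane hiding I
open Real Complex Filter Function Derivative
open scoped Manifold MatrixGroups ModularForm Topology

local notation "𝕢" => Periodic.qParam

/-- A periodic holomorphic function bounded at `i∞` has a limit at `i∞`. -/
theorem tendsto_atImInfty_of_periodic {F : ℍ → ℂ} (hper : Periodic (F ∘ ofComplex) 1)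
    (hhol : MDiff F) (hbdd : IsBoundedAtImInfty F) :
    Tendsto F atImInfty (𝓝 (cuspFunction 1 F 0)) := by
  have han := analyticAt_cuspFunction_zero one_pos hper hhol hbdd
  have : (cuspFunction 1 F ∘ fun τ : ℍ ↦ 𝕢 1 τ : ℍ → ℂ) = F := by
    funext τ
    simpa using eq_cuspFunction τ one_ne_zero hper
  simpa [this] using han.continuousAt.tendsto.comp (qParam_tendsto_atImInfty one_pos)

/-- The normalized derivative in terms of the cusp function: `D F = q · φ'(q)`. -/
theorem normalizedDeriv_eq_cuspFunction {F : ℍ → ℂ} (hper : Periodic (F ∘ ofComplex) 1)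
    (hhol : MDiff F) (hbdd : IsBoundedAtImInfty F) (τ : ℍ) :
    normalizedDerivOfComplex F τ = 𝕢 1 τ * deriv (cuspFunction 1 F) (𝕢 1 τ) := by
  have hq : ‖𝕢 1 (τ : ℂ)‖ < 1 := by
    simpa using Periodic.norm_qParam_lt_one one_pos τ.im_pos
  have hdiff := differentiableAt_cuspFunction one_pos hper hhol hbdd hq
  have hEq : (F ∘ ofComplex) =ᶠ[𝓝 (τ : ℂ)] (cuspFunction 1 F ∘ fun w : ℂ ↦ 𝕢 1 w) := by
    have hopen : IsOpen {w : ℂ | 0 < w.im} := isOpen_lt continuous_const Complex.continuous_im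
    filter_upwards [hopen.mem_nhds τ.im_pos] with w hw
    have := eq_cuspFunction (⟨w, hw⟩ : ℍ) one_ne_zero hper
    simp only [comp_apply, ofComplex_apply_of_im_pos hw]
    exact this.symm
  have hqd : HasDerivAt (fun w : ℂ ↦ 𝕢 1 w) (2 * π * I * 𝕢 1 (τ : ℂ)) (τ : ℂ) := by
    have h1 : HasDerivAt (fun w : ℂ ↦ 2 * π * I * w / (1 : ℝ)) (2 * π * I) (τ : ℂ) := by
      simpa using ((hasDerivAt_id (τ : ℂ)).const_mul (2 * π * I)).div_const ((1 : ℝ) : ℂ)
    have h2 := h1.cexp
    simpa [Periodic.qParam, mul_comm] using h2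
  have hcomp : HasDerivAt (cuspFunction 1 F ∘ fun w : ℂ ↦ 𝕢 1 w)
      (deriv (cuspFunction 1 F) (𝕢 1 (τ : ℂ)) * (2 * π * I * 𝕢 1 (τ : ℂ))) (τ : ℂ) :=
    hdiff.hasDerivAt.comp (τ : ℂ) hqd
  have hderiv : deriv (F ∘ ofComplex) (τ : ℂ)
      = deriv (cuspFunction 1 F) (𝕢 1 (τ : ℂ)) * (2 * π * I * 𝕢 1 (τ : ℂ)) := by
    rw [hEq.deriv_eq]; exact hcomp.deriv
  have h2pi : (2 * π * I : ℂ) ≠ 0 := by
    simp [Real.pi_ne_zero]
  rw [normalizedDerivOfComplex, hderiv]
  field_simp

/-- The normalized derivative of a periodic holomorphic function bounded at `i∞` tends to `0`. -/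
theorem tendsto_normalizedDeriv_atImInfty {F : ℍ → ℂ} (hper : Periodic (F ∘ ofComplex) 1)
    (hhol : MDiff F) (hbdd : IsBoundedAtImInfty F) :
    Tendsto (normalizedDerivOfComplex F) atImInfty (𝓝 0) := by
  have han := analyticAt_cuspFunction_zero one_pos hper hhol hbdd
  have hcont : ContinuousAt (deriv (cuspFunction 1 F)) 0 := han.deriv.continuousAt
  have hq := qParam_tendsto_atImInfty (h := 1) one_pos
  have h1 : Tendsto (fun τ : ℍ ↦ 𝕢 1 τ * deriv (cuspFunction 1 F) (𝕢 1 τ)) atImInfty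
      (𝓝 (0 * deriv (cuspFunction 1 F) 0)) :=
    hq.mul (hcont.tendsto.comp hq)
  rw [zero_mul] at h1
  refine h1.congr fun τ ↦ ?_
  exact (normalizedDeriv_eq_cuspFunction hper hhol hbdd τ).symm

end Fermat.Agent.ES
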