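import Fermat.Agent.ES.J.Limits

/-!
# ES / J3: the Serre derivative of a level-one form and Ramanujan's identities
-/

set_option autoImplicit false

namespace Fermat.Agent.ES

open UpperHalfPlane hiding I
open Real Complex Filter Function Derivative
open ModularForm EisensteinSeries SlashInvariantForm SlashInvariantFormClass ModularFormClass
open scoped Manifold MatrixGroups ModularForm Topology

local notation "𝕢" => Periodic.qParam

/-- Limit at `i∞` of a level-one modular form: its `0`-th `q`-coefficient. -/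
theorem tendsto_levelOne {k : ℤ} (f : ModularForm 𝒮ℒ k) :
    Tendsto f atImInfty (𝓝 ((qExpansion 1 f).coeff 0)) := by
  have h := tendsto_atImInfty_of_periodic (F := f)
    (periodic_comp_ofComplex f one_mem_strictPeriods_SL) (holo f) (bdd_at_infty f)
  simpa [qExpansion_coeff] using h

theorem periodic_E2 : Periodic (E2 ∘ ofComplex) 1 := by
  intro w
  by_cases! hw : 0 < im w
  · have hw1 : 0 < im (w + 1) := by simpa using hw
    simp only [comp_apply, ofComplex_apply_of_im_pos hw1, ofComplex_apply_of_im_pos hw,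
      E2_eq_tsum_cexp]
    congr 2
    refine tsum_congr fun n ↦ ?_
    congr 2
    rw [mul_add, Complex.exp_add, mul_one, Complex.exp_two_pi_mul_I, mul_one]
  · have : im (w + 1) ≤ 0 := by simpa using hw
    simp [ofComplex_apply_of_im_nonpos this, ofComplex_apply_of_im_nonpos hw]

theorem hasSum_E2_qParam (τ : ℍ) :
    HasSum (fun m : ℕ ↦ (if m = 0 then 1 else -24 * (ArithmeticFunction.sigma 1 m : ℂ))
      • 𝕢 1 τ ^ m) (E2 τ) := by
  have h := hasSum_qExpansion_E2 (z := τ)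
  have e : 𝕢 1 (τ : ℂ) = cexp (2 * π * I * τ) := by
    simp [Function.Periodic.qParam]
  rw [e]
  exact h

theorem cuspFunction_E2_zero : cuspFunction 1 E2 0 = 1 := by
  have han := analyticAt_cuspFunction_zero one_pos periodic_E2 E2_mdifferentiable
    isBoundedAtImInfty_E2
  have hc := (UpperHalfPlane.hasFPowerSeriesOnBall_cuspFunction (h := 1) (f := E2)
    (c := fun m : ℕ ↦ (if m = 0 then 1 else -24 * (ArithmeticFunction.sigma 1 m : ℂ)))
    one_pos han hasSum_E2_qParam).hasFPowerSeriesAt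
  have := hc.coeff_zero (fun _ => 0)
  simpa using this.symm

theorem tendsto_E2 : Tendsto E2 atImInfty (𝓝 1) := by
  have h := tendsto_atImInfty_of_periodic periodic_E2 E2_mdifferentiable isBoundedAtImInfty_E2
  rwa [cuspFunction_E2_zero] at h

/-- `D f → 0` at `i∞` for a level-one modular form. -/
theorem tendsto_normalizedDeriv_levelOne {k : ℤ} (f : ModularForm 𝒮ℒ k) :
    Tendsto (D f) atImInfty (𝓝 0) :=
  tendsto_normalizedDeriv_atImInfty (periodic_comp_ofComplex f one_mem_strictPeriods_SL)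
    (holo f) (bdd_at_infty f)

/-- Limit of the Serre derivative of a level-one form at `i∞`. -/
theorem tendsto_serreDerivative_levelOne {k : ℤ} (f : ModularForm 𝒮ℒ k) :
    Tendsto (serreDerivative k f) atImInfty
      (𝓝 (-(k : ℂ) * 12⁻¹ * (qExpansion 1 f).coeff 0)) := by
  have h1 := tendsto_normalizedDeriv_levelOne f
  have h2 := (tendsto_E2.const_mul ((k : ℂ) * 12⁻¹)).mul (tendsto_levelOne f)
  have h3 := h1.sub h2
  have e : (0 : ℂ) - (k : ℂ) * 12⁻¹ * 1 * (qExpansion 1 f).coeff 0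
      = -(k : ℂ) * 12⁻¹ * (qExpansion 1 f).coeff 0 := by ring
  rw [e] at h3
  refine h3.congr fun τ ↦ ?_
  simp [serreDerivative_apply, mul_assoc]

/-- The Serre derivative of a level-one modular form of weight `k`, as a modular form of
weight `k + 2`. -/
theorem levelOne_slash_eq {k : ℤ} (f : ModularForm 𝒮ℒ k) (γ : SL(2, ℤ)) :
    (f : ℍ → ℂ) ∣[k] γ = f := by
  have hγ : (γ : GL (Fin 2) ℝ) ∈ 𝒮ℒ := ⟨γ, rfl⟩
  rw [SL_slash, slash_action_eqn _ _ hγ]

theorem serreDerivative_levelOne_slash_eq {k : ℤ} (f : ModularForm 𝒮ℒ k) (γ : SL(2, ℤ)) :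
    serreDerivative k f ∣[k + 2] γ = serreDerivative k f :=
  serreDerivative_slash_invariant (holo f) (levelOne_slash_eq f γ)

noncomputable def serreForm {k : ℤ} (f : ModularForm 𝒮ℒ k) : ModularForm 𝒮ℒ (k + 2) where
  toFun := serreDerivative k f
  slash_action_eq' := fun _ ⟨γ, hγ⟩ ↦ hγ ▸ serreDerivative_levelOne_slash_eq f γ
  holo' := serreDerivative_mdifferentiable (k : ℂ) (holo f)
  bdd_at_cusps' {c} hc := by
    rw [Subgroup.IsArithmetic.isCusp_iff_isCusp_SL2Z] at hc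
    rw [OnePoint.isBoundedAt_iff_forall_SL2Z hc]
    intro γ _
    rw [serreDerivative_levelOne_slash_eq f γ]
    exact (tendsto_serreDerivative_levelOne f).isBigO_one ℝ

@[simp]
theorem serreForm_apply {k : ℤ} (f : ModularForm 𝒮ℒ k) (z : ℍ) :
    serreForm f z = D f z - k * 12⁻¹ * E2 z * f z := rfl

theorem tendsto_E₄ : Tendsto E₄ atImInfty (𝓝 1) := by
  simpa [E_qExpansion_coeff_zero _ ⟨2, rfl⟩] using tendsto_levelOne E₄

theorem tendsto_E₆ : Tendsto E₆ atImInfty (𝓝 1) := by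
  simpa [E_qExpansion_coeff_zero _ ⟨3, rfl⟩] using tendsto_levelOne E₆

/-- **Ramanujan's identity** for `E₄`. -/
theorem ramanujan_E₄ (z : ℍ) : D E₄ z = (E2 z * E₄ z - E₆ z) / 3 := by
  obtain ⟨c, hc⟩ : ∃ c : ℂ, c • E₆ = mcast (by decide) (serreForm E₄) :=
    (finrank_eq_one_iff_of_nonzero' E₆ (E_ne_zero _ ⟨3, rfl⟩)).mp
      (Module.rank_eq_one_iff_finrank_eq_one.mp levelOne_weight_six_rank_one) _
  have hpt : ∀ τ : ℍ, c * E₆ τ = serreDerivative ((4 : ℕ) : ℤ) E₄ τ := fun τ ↦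
    congrArg (fun F : ModularForm 𝒮ℒ ((6 : ℕ) : ℤ) ↦ F τ) hc
  have hlim1 : Tendsto (fun τ : ℍ ↦ c * E₆ τ) atImInfty (𝓝 (c * 1)) :=
    tendsto_E₆.const_mul c
  have hlim2 := tendsto_serreDerivative_levelOne E₄
  rw [E_qExpansion_coeff_zero _ ⟨2, rfl⟩] at hlim2
  have hc' : c * 1 = -(((4 : ℕ) : ℤ) : ℂ) * 12⁻¹ * 1 :=
    tendsto_nhds_unique hlim1 (hlim2.congr fun τ ↦ (hpt τ).symm)
  have hcval : c = -1 / 3 := by
    have : c = -(((4 : ℕ) : ℤ) : ℂ) * 12⁻¹ := by simpa using hc'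
    rw [this]; norm_num
  have h := hpt z
  rw [serreDerivative_apply, hcval] at h
  have h4 : ((((4 : ℕ) : ℤ) : ℂ)) = 4 := by norm_num
  rw [h4] at h
  linear_combination -h

/-- **Ramanujan's identity** for `E₆`. -/
theorem ramanujan_E₆ (z : ℍ) : D E₆ z = (E2 z * E₆ z - E₄ z ^ 2) / 2 := by
  have hrank : Module.rank ℂ (ModularForm 𝒮ℒ ((8 : ℕ) : ℤ)) = 1 := by
    rw [dimension_level_one 8 ⟨4, rfl⟩]
    simp [Nat.ModEq]
  have hne : (mcast (by decide) (E₄.mul E₄) : ModularForm 𝒮ℒ ((8 : ℕ) : ℤ)) ≠ 0 := by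
    intro h0
    have h1 : Tendsto (fun τ : ℍ ↦ E₄ τ * E₄ τ) atImInfty (𝓝 (1 * 1)) := tendsto_E₄.mul tendsto_E₄
    have h2 : ∀ τ : ℍ, E₄ τ * E₄ τ = 0 := fun τ ↦
      congrArg (fun F : ModularForm 𝒮ℒ ((8 : ℕ) : ℤ) ↦ F τ) h0
    have h3 : Tendsto (fun τ : ℍ ↦ E₄ τ * E₄ τ) atImInfty (𝓝 0) := by
      simp only [h2]; exact tendsto_const_nhds
    have := tendsto_nhds_unique h1 h3
    norm_num at this
  obtain ⟨c, hc⟩ : ∃ c : ℂ, c • (mcast (by decide) (E₄.mul E₄) : ModularForm 𝒮ℒ ((8 : ℕ) : ℤ))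
      = mcast (by decide) (serreForm E₆) :=
    (finrank_eq_one_iff_of_nonzero' _ hne).mp (Module.rank_eq_one_iff_finrank_eq_one.mp hrank) _
  have hpt : ∀ τ : ℍ, c * (E₄ τ * E₄ τ) = serreDerivative ((6 : ℕ) : ℤ) E₆ τ := fun τ ↦
    congrArg (fun F : ModularForm 𝒮ℒ ((8 : ℕ) : ℤ) ↦ F τ) hc
  have hlim1 : Tendsto (fun τ : ℍ ↦ c * (E₄ τ * E₄ τ)) atImInfty (𝓝 (c * (1 * 1))) :=
    (tendsto_E₄.mul tendsto_E₄).const_mul c
  have hlim2 := tendsto_serreDerivative_levelOne E₆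
  rw [E_qExpansion_coeff_zero _ ⟨3, rfl⟩] at hlim2
  have hc' : c * (1 * 1) = -(((6 : ℕ) : ℤ) : ℂ) * 12⁻¹ * 1 :=
    tendsto_nhds_unique hlim1 (hlim2.congr fun τ ↦ (hpt τ).symm)
  have hcval : c = -1 / 2 := by
    have : c = -(((6 : ℕ) : ℤ) : ℂ) * 12⁻¹ := by simpa using hc'
    rw [this]; norm_num
  have h := hpt z
  rw [serreDerivative_apply, hcval] at h
  have h6 : ((((6 : ℕ) : ℤ) : ℂ)) = 6 := by norm_num
  rw [h6] at h
  linear_combination -h

/-- **Ramanujan's identity** for `Δ`. -/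
theorem ramanujan_discriminant (z : ℍ) :
    D ModularForm.discriminant z = E2 z * ModularForm.discriminant z := by
  have hfun : (ModularForm.discriminant : ℍ → ℂ)
      = (1728 : ℂ)⁻¹ • ((E₄ : ℍ → ℂ) ^ 3 - (E₆ : ℍ → ℂ) ^ 2) := by
    funext τ
    simp only [Pi.smul_apply, Pi.sub_apply, Pi.pow_apply, smul_eq_mul]
    rw [discriminant_eq_E₄_cube_sub_E₆_sq τ]
    ring
  have h4 : MDiff (E₄ : ℍ → ℂ) := holo E₄
  have h6 : MDiff (E₆ : ℍ → ℂ) := holo E₆
  have h43 : MDiff ((E₄ : ℍ → ℂ) ^ 3) := by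
    have := holo (E₄.pow 3)
    rwa [ModularForm.coe_pow] at this
  have h62 : MDiff ((E₆ : ℍ → ℂ) ^ 2) := by
    have := holo (E₆.pow 2)
    rwa [ModularForm.coe_pow] at this
  have hD : D ModularForm.discriminant z
      = (1728 : ℂ)⁻¹ * (3 * E₄ z ^ 2 * D E₄ z - 2 * E₆ z * D E₆ z) := by
    rw [hfun, normalizedDerivOfComplex_smul _ _ (h43.sub h62),
      normalizedDerivOfComplex_sub _ _ h43 h62, normalizedDerivOfComplex_pow _ _ h4,
      normalizedDerivOfComplex_pow _ _ h6]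
    simp
  rw [hD, ramanujan_E₄, ramanujan_E₆, discriminant_eq_E₄_cube_sub_E₆_sq z]
  ring

end Fermat.Agent.ES
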